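/-
MAZUR project, node [MZ-J], cell [J-SS] (owner helper28), sub-cell **[SS-A]**.  Prefix `mzj_ss_a_`.

CUSPIDAL REDUCTION ⟹ EVERY POINT OF `2`-POWER ORDER REDUCES TO THE CUSP.

`F` a field, `A : ValuationSubring F` with `2` a unit, `W : Affine F` with integral `b`-invariants.
* `mzj_ss_a_main`: if `r ∈ A` is such that the `b`-invariants `β₂, β₄, β₆, β₈` of the curve
  translated by `x ↦ x + r` all lie in the maximal ideal (the reduction is cuspidal with cusp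
  `x ≡ r`), then every `P = (x, y) ≠ 0` with `2^k • P = 0` has `x ∈ A` and `v(x - r) < 1`.
  Proof: induction on `k` with the duplication formula in the translated coordinate `X = x - r`:
  `ψ₂²(x) = 4X³ + β₂X² + 2β₄X + β₆`, `(x(2P) - r) ψ₂²(x) = X⁴ - β₄X² - 2β₆X - β₈`;
  `x ∈ A` because the kernel of reduction has no `2`-power torsion (`nt2_eq_zero_of_nsmul_eq_zero`).
* `mzj_ss_a_exists_cusp`: such an `r` exists as soon as `c₄` and `Δ` lie in the maximal ideal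
  (`F` algebraically closed; `r = -b₂/12` if `3` is a unit, a cube root of `-b₆/4` otherwise).
* `mzj_ss_a_int`: the S15 vocabulary (`W : WeierstrassCurve ℤ`, `ℓ` odd, `ℓ ∣ c₄`, `ℓ ∣ Δ`, `A ∣ ℓ`).
-/
import Mathlib
import Fermat.Agent.S13.Local.NoTorsionTwo
import Fermat.Agent.S05.IntVal
import Fermat.Agent.MZ.J.E1DivP

set_option autoImplicit false

namespace Fermat.Agent.MZ

open WeierstrassCurve WeierstrassCurve.Affine Fermat.Agent.S05 Fermat.Agent.S13 Fermat.Agent.S58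

section generic

variable {F : Type*} [Field F]

/-- the `b`-invariants of the curve translated by `x ↦ x + r` -/
def mzj_ss_a_β₂ (W : Affine F) (r : F) : F := W.b₂ + 12 * r
def mzj_ss_a_β₄ (W : Affine F) (r : F) : F := W.b₄ + r * W.b₂ + 6 * r ^ 2
def mzj_ss_a_β₆ (W : Affine F) (r : F) : F := W.b₆ + 2 * r * W.b₄ + r ^ 2 * W.b₂ + 4 * r ^ 3
def mzj_ss_a_β₈ (W : Affine F) (r : F) : F :=
  W.b₈ + 3 * r * W.b₆ + 3 * r ^ 2 * W.b₄ + r ^ 3 * W.b₂ + 3 * r ^ 4

theorem mzj_ss_a_psi2Sq (W : Affine F) (r x : F) :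
    psi2Sq W x = 4 * (x - r) ^ 3 + mzj_ss_a_β₂ W r * (x - r) ^ 2
      + 2 * mzj_ss_a_β₄ W r * (x - r) + mzj_ss_a_β₆ W r := by
  simp only [psi2Sq, mzj_ss_a_β₂, mzj_ss_a_β₄, mzj_ss_a_β₆]
  ring

theorem mzj_ss_a_dupNum (W : Affine F) (r x : F) :
    dupNum W x - r * psi2Sq W x = (x - r) ^ 4 - mzj_ss_a_β₄ W r * (x - r) ^ 2
      - 2 * mzj_ss_a_β₆ W r * (x - r) - mzj_ss_a_β₈ W r := by
  simp only [dupNum, psi2Sq, mzj_ss_a_β₄, mzj_ss_a_β₆, mzj_ss_a_β₈]
  ring

theorem mzj_ss_a_β_relation (W : Affine F) (r : F) :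
    4 * mzj_ss_a_β₈ W r = mzj_ss_a_β₂ W r * mzj_ss_a_β₆ W r - mzj_ss_a_β₄ W r ^ 2 := by
  simp only [mzj_ss_a_β₂, mzj_ss_a_β₄, mzj_ss_a_β₆, mzj_ss_a_β₈]
  linear_combination W.b_relation

variable {A : ValuationSubring F}

/-- `v(X)^n < 1 → v(X) < 1` -/
theorem mzj_ss_a_lt_one_of_pow {X : F} {n : ℕ} (h : A.valuation (X ^ n) < 1) :
    A.valuation X < 1 := by
  by_contra hcon
  push Not at hcon
  rw [map_pow] at h
  exact absurd (one_le_pow_of_one_le' hcon n) (not_le.mpr h)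

theorem mzj_ss_a_lt_one_add {a b : F} (ha : A.valuation a < 1) (hb : A.valuation b < 1) :
    A.valuation (a + b) < 1 :=
  lt_of_le_of_lt (A.valuation.map_add a b) (max_lt ha hb)

theorem mzj_ss_a_lt_one_mul {a b : F} (ha : A.valuation a < 1) (hb : b ∈ A) :
    A.valuation (a * b) < 1 := by
  rw [map_mul]
  calc A.valuation a * A.valuation b ≤ A.valuation a * 1 :=
        mul_le_mul_right ((A.valuation_le_one_iff _).mpr hb) _
    _ = A.valuation a := mul_one _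
    _ < 1 := ha

theorem mzj_ss_a_mem_of_lt {a : F} (ha : A.valuation a < 1) : a ∈ A :=
  (A.valuation_le_one_iff _).mp ha.le

variable [DecidableEq F] {W : Affine F}

/-- **[SS-A]**: with a cusp at `x ≡ r`, every nonzero point of `2`-power order has integral
`x`-coordinate congruent to `r`. -/
theorem mzj_ss_a_main (h₂ : W.b₂ ∈ A) (h₄ : W.b₄ ∈ A) (h₆ : W.b₆ ∈ A) (h₈ : W.b₈ ∈ A)
    (htwo : A.valuation (2 : F) = 1) {r : F} (hr : r ∈ A)
    (hβ₂ : A.valuation (mzj_ss_a_β₂ W r) < 1) (hβ₄ : A.valuation (mzj_ss_a_β₄ W r) < 1)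
    (hβ₆ : A.valuation (mzj_ss_a_β₆ W r) < 1) (hβ₈ : A.valuation (mzj_ss_a_β₈ W r) < 1)
    (k : ℕ) {x y : F} (h : W.Nonsingular x y) (hk : 2 ^ k • Point.some x y h = 0) :
    x ∈ A ∧ A.valuation (x - r) < 1 := by
  induction k generalizing x y with
  | zero =>
    rw [pow_zero, one_nsmul] at hk
    exact absurd hk (Point.some_ne_zero h)
  | succ k ih =>
    have hunit : A.valuation ((2 ^ (k + 1) : ℕ) : F) = 1 := by
      rw [Nat.cast_pow, map_pow, Nat.cast_ofNat, htwo, one_pow]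
    have hxA : x ∈ A := by
      by_contra hx
      have hker : InKerRed A (Point.some x y h) := (inKerRed_some h).mpr hx
      exact Point.some_ne_zero h (nt2_eq_zero_of_nsmul_eq_zero h₂ h₄ h₆ h₈ hunit hker hk)
    have hXA : x - r ∈ A := sub_mem hxA hr
    have h4 : A.valuation (4 : F) = 1 := by
      have : (4 : F) = 2 * 2 := by norm_num
      rw [this, map_mul, htwo, one_mul]
    have h2A : (2 : F) ∈ A := (A.valuation_le_one_iff _).mp htwo.le
    have h4A : (4 : F) ∈ A := (A.valuation_le_one_iff _).mp h4.le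
    refine ⟨hxA, ?_⟩
    rcases two_nsmul_some h with ⟨hpsi, -⟩ | ⟨-, x', y', h', h2P, hdup⟩
    · -- `ψ₂²(x) = 0`
      rw [mzj_ss_a_psi2Sq W r x] at hpsi
      have e : 4 * (x - r) ^ 3 = -(mzj_ss_a_β₂ W r * (x - r) ^ 2
          + mzj_ss_a_β₄ W r * (2 * (x - r)) + mzj_ss_a_β₆ W r) := by linear_combination hpsi
      have hlt : A.valuation (4 * (x - r) ^ 3) < 1 := by
        rw [e, Valuation.map_neg]
        exact mzj_ss_a_lt_one_add (mzj_ss_a_lt_one_add
          (mzj_ss_a_lt_one_mul hβ₂ (pow_mem hXA 2))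
          (mzj_ss_a_lt_one_mul hβ₄ (mul_mem h2A hXA))) hβ₆
      rw [map_mul, h4, one_mul] at hlt
      exact mzj_ss_a_lt_one_of_pow hlt
    · -- `2P = (x', y') ≠ 0`
      have hk' : 2 ^ k • Point.some x' y' h' = 0 := by
        rw [← h2P, ← mul_nsmul', ← pow_succ]
        exact hk
      obtain ⟨hx'A, hx'r⟩ := ih h' hk'
      have hpsiA : psi2Sq W x ∈ A := by
        simp only [psi2Sq]
        exact add_mem (add_mem (add_mem (mul_mem h4A (pow_mem hxA 3))
          (mul_mem h₂ (pow_mem hxA 2))) (mul_mem (mul_mem h2A h₄) hxA)) h₆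
      have e : (x - r) ^ 4 = (x' - r) * psi2Sq W x + mzj_ss_a_β₄ W r * (x - r) ^ 2
          + mzj_ss_a_β₆ W r * (2 * (x - r)) + mzj_ss_a_β₈ W r := by
        have := mzj_ss_a_dupNum W r x
        linear_combination -hdup - this
      have hlt : A.valuation ((x - r) ^ 4) < 1 := by
        rw [e]
        exact mzj_ss_a_lt_one_add (mzj_ss_a_lt_one_add (mzj_ss_a_lt_one_add
          (mzj_ss_a_lt_one_mul hx'r hpsiA) (mzj_ss_a_lt_one_mul hβ₄ (pow_mem hXA 2)))
          (mzj_ss_a_lt_one_mul hβ₆ (mul_mem h2A hXA))) hβ₈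
      exact mzj_ss_a_lt_one_of_pow hlt

omit [DecidableEq F] in
/-- **the cusp exists**: `c₄, Δ ∈ 𝔪`, `2` a unit ⟹ some `r ∈ A` makes all translated
`b`-invariants non-units. -/
theorem mzj_ss_a_exists_cusp [IsAlgClosed F] (h₂ : W.b₂ ∈ A) (h₄ : W.b₄ ∈ A) (h₆ : W.b₆ ∈ A)
    (h₈ : W.b₈ ∈ A) (htwo : A.valuation (2 : F) = 1) (hc₄ : A.valuation W.c₄ < 1)
    (hΔ : A.valuation W.Δ < 1) :
    ∃ r ∈ A, A.valuation (mzj_ss_a_β₂ W r) < 1 ∧ A.valuation (mzj_ss_a_β₄ W r) < 1 ∧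
      A.valuation (mzj_ss_a_β₆ W r) < 1 ∧ A.valuation (mzj_ss_a_β₈ W r) < 1 := by
  have h2A : (2 : F) ∈ A := (A.valuation_le_one_iff _).mp htwo.le
  have h4 : A.valuation (4 : F) = 1 := by
    have : (4 : F) = 2 * 2 := by norm_num
    rw [this, map_mul, htwo, one_mul]
  have h4A : (4 : F) ∈ A := (A.valuation_le_one_iff _).mp h4.le
  have h8 : A.valuation (8 : F) = 1 := by
    have : (8 : F) = 2 * 4 := by norm_num
    rw [this, map_mul, htwo, h4, one_mul]
  have h3A : (3 : F) ∈ A := by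
    have : (3 : F) = ((3 : ℕ) : F) := by norm_num
    rw [this]; exact natCast_mem A 3
  -- `β₈` from the others
  have key8 : ∀ r ∈ A, A.valuation (mzj_ss_a_β₂ W r) < 1 → A.valuation (mzj_ss_a_β₄ W r) < 1 →
      A.valuation (mzj_ss_a_β₆ W r) < 1 → A.valuation (mzj_ss_a_β₈ W r) < 1 := by
    intro r hr hb2 hb4 hb6
    have hrel := mzj_ss_a_β_relation W r
    have : A.valuation (4 * mzj_ss_a_β₈ W r) < 1 := by
      rw [hrel, sub_eq_add_neg]
      refine mzj_ss_a_lt_one_add (mzj_ss_a_lt_one_mul hb2 (mzj_ss_a_mem_of_lt hb6)) ?_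
      rw [Valuation.map_neg, sq]
      exact mzj_ss_a_lt_one_mul hb4 (mzj_ss_a_mem_of_lt hb4)
    rwa [map_mul, h4, one_mul] at this
  have h8A : (8 : F) ∈ A := (A.valuation_le_one_iff _).mp h8.le
  rcases lt_or_eq_of_le ((A.valuation_le_one_iff _).mpr h3A) with h3 | h3
  · -- residue characteristic `3`
    have h3m : ∀ a : F, a ∈ A → A.valuation (3 * a) < 1 := fun a ha =>
      mzj_ss_a_lt_one_mul h3 ha
    have hb2 : A.valuation W.b₂ < 1 := by
      have e : W.b₂ ^ 2 = W.c₄ + 3 * (8 * W.b₄) := by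
        simp only [WeierstrassCurve.c₄]; ring
      refine mzj_ss_a_lt_one_of_pow (n := 2) ?_
      rw [e]
      exact mzj_ss_a_lt_one_add hc₄ (h3m _ (mul_mem h8A h₄))
    have hb4 : A.valuation W.b₄ < 1 := by
      have e : 8 * W.b₄ ^ 3 = -W.Δ + W.b₂ * (-(W.b₂ * W.b₈) + 9 * W.b₄ * W.b₆)
          + 3 * (-(9 * W.b₆ ^ 2)) := by
        simp only [WeierstrassCurve.Δ]; ring
      have h9A : (9 : F) ∈ A := by
        have : (9 : F) = 3 * 3 := by norm_num
        rw [this]; exact mul_mem h3A h3A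
      have hlt : A.valuation (8 * W.b₄ ^ 3) < 1 := by
        rw [e]
        refine mzj_ss_a_lt_one_add (mzj_ss_a_lt_one_add ?_ (mzj_ss_a_lt_one_mul hb2 ?_)) (h3m _ ?_)
        · rwa [Valuation.map_neg]
        · exact add_mem (neg_mem (mul_mem h₂ h₈)) (mul_mem (mul_mem h9A h₄) h₆)
        · exact neg_mem (mul_mem h9A (pow_mem h₆ 2))
      rw [map_mul, h8, one_mul] at hlt
      exact mzj_ss_a_lt_one_of_pow hlt
    obtain ⟨r, hr3⟩ := IsAlgClosed.exists_pow_nat_eq (-W.b₆ / 4) (by norm_num : 0 < 3)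
    have h4ne : (4 : F) ≠ 0 := by
      intro h0
      rw [h0, map_zero] at h4
      exact zero_ne_one h4
    have hrA : r ∈ A := by
      rw [← A.valuation_le_one_iff]
      by_contra hcon
      push Not at hcon
      have h1 : 1 < A.valuation (r ^ 3) := by
        rw [map_pow]; exact one_lt_pow₀ hcon (by norm_num)
      rw [hr3, map_div₀, h4, div_one, Valuation.map_neg] at h1
      exact absurd ((A.valuation_le_one_iff _).mpr h₆) (not_le.mpr h1)
    have e6 : mzj_ss_a_β₆ W r = W.b₄ * (2 * r) + W.b₂ * r ^ 2 := by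
      have : 4 * r ^ 3 = -W.b₆ := by rw [hr3]; field_simp
      simp only [mzj_ss_a_β₆]
      linear_combination this
    have hβ₂ : A.valuation (mzj_ss_a_β₂ W r) < 1 := by
      have : mzj_ss_a_β₂ W r = W.b₂ + 3 * (4 * r) := by simp only [mzj_ss_a_β₂]; ring
      rw [this]
      exact mzj_ss_a_lt_one_add hb2 (h3m _ (mul_mem h4A hrA))
    have hβ₄ : A.valuation (mzj_ss_a_β₄ W r) < 1 := by
      have : mzj_ss_a_β₄ W r = W.b₄ + W.b₂ * r + 3 * (2 * r ^ 2) := by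
        simp only [mzj_ss_a_β₄]; ring
      rw [this]
      exact mzj_ss_a_lt_one_add (mzj_ss_a_lt_one_add hb4 (mzj_ss_a_lt_one_mul hb2 hrA))
        (h3m _ (mul_mem h2A (pow_mem hrA 2)))
    have hβ₆ : A.valuation (mzj_ss_a_β₆ W r) < 1 := by
      rw [e6]
      exact mzj_ss_a_lt_one_add (mzj_ss_a_lt_one_mul hb4 (mul_mem h2A hrA))
        (mzj_ss_a_lt_one_mul hb2 (pow_mem hrA 2))
    exact ⟨r, hrA, hβ₂, hβ₄, hβ₆, key8 r hrA hβ₂ hβ₄ hβ₆⟩
  · -- `3` a unit: `r = -b₂/12`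
    have h12 : A.valuation (12 : F) = 1 := by
      have : (12 : F) = 3 * 4 := by norm_num
      rw [this, map_mul, h3, h4, one_mul]
    have h24 : A.valuation (24 : F) = 1 := by
      have : (24 : F) = 2 * 12 := by norm_num
      rw [this, map_mul, htwo, h12, one_mul]
    have h216 : A.valuation (216 : F) = 1 := by
      have : (216 : F) = 3 * 3 * (2 * 12) := by norm_num
      rw [this, map_mul, map_mul, map_mul, h3, htwo, h12]; simp
    have h1728 : (1728 : F) ∈ A := by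
      have : (1728 : F) = ((1728 : ℕ) : F) := by norm_num
      rw [this]; exact natCast_mem A 1728
    have hne : ∀ {a : F}, A.valuation a = 1 → a ≠ 0 := by
      intro a ha h0
      rw [h0, map_zero] at ha
      exact zero_ne_one ha
    have h12ne := hne h12
    have h24ne := hne h24
    have h216ne := hne h216
    set r : F := -W.b₂ / 12 with hr
    have hrA : r ∈ A := by
      rw [← A.valuation_le_one_iff, hr, map_div₀, h12, div_one, Valuation.map_neg]
      exact (A.valuation_le_one_iff _).mpr h₂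
    have e2 : mzj_ss_a_β₂ W r = 0 := by
      simp only [mzj_ss_a_β₂, hr]; field_simp; ring
    have e4 : 24 * mzj_ss_a_β₄ W r = -W.c₄ := by
      simp only [mzj_ss_a_β₄, hr, WeierstrassCurve.c₄]; field_simp; ring
    have e6 : 216 * mzj_ss_a_β₆ W r = -W.c₆ := by
      simp only [mzj_ss_a_β₆, hr, WeierstrassCurve.c₆]; field_simp; ring
    have hc₆ : A.valuation W.c₆ < 1 := by
      have e : W.c₆ ^ 2 = W.c₄ * W.c₄ ^ 2 + W.Δ * (-1728) := by
        linear_combination W.c_relation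
      refine mzj_ss_a_lt_one_of_pow (n := 2) ?_
      rw [e]
      exact mzj_ss_a_lt_one_add (mzj_ss_a_lt_one_mul hc₄ (pow_mem (mzj_ss_a_mem_of_lt hc₄) 2))
        (mzj_ss_a_lt_one_mul hΔ (neg_mem h1728))
    have hβ₂ : A.valuation (mzj_ss_a_β₂ W r) < 1 := by
      rw [e2, map_zero]; exact zero_lt_one
    have hβ₄ : A.valuation (mzj_ss_a_β₄ W r) < 1 := by
      have : A.valuation (24 * mzj_ss_a_β₄ W r) < 1 := by
        rw [e4, Valuation.map_neg]; exact hc₄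
      rwa [map_mul, h24, one_mul] at this
    have hβ₆ : A.valuation (mzj_ss_a_β₆ W r) < 1 := by
      have : A.valuation (216 * mzj_ss_a_β₆ W r) < 1 := by
        rw [e6, Valuation.map_neg]; exact hc₆
      rwa [map_mul, h216, one_mul] at this
    exact ⟨r, hrA, hβ₂, hβ₄, hβ₆, key8 r hrA hβ₂ hβ₄ hβ₆⟩

end generic

/-! ### S15 vocabulary -/

theorem mzj_ss_a_c₄_s58 (W : WeierstrassCurve ℤ) :
    ((s58_WQ W)⁄s58_Qb).c₄ = ((W.c₄ : ℤ) : s58_Qb) := by
  show ((W.map (Int.castRingHom ℚ)).map (algebraMap ℚ s58_Qb)).c₄ = _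
  rw [WeierstrassCurve.map_c₄, WeierstrassCurve.map_c₄]
  simp

theorem mzj_ss_a_Δ_s58 (W : WeierstrassCurve ℤ) :
    ((s58_WQ W)⁄s58_Qb).Δ = ((W.Δ : ℤ) : s58_Qb) := by
  show ((W.map (Int.castRingHom ℚ)).map (algebraMap ℚ s58_Qb)).Δ = _
  rw [WeierstrassCurve.map_Δ, WeierstrassCurve.map_Δ]
  simp

/-- the valuation of `2` at a place over an odd prime -/
theorem mzj_ss_a_two_unit {ℓ : ℕ} (hℓ : ℓ.Prime) (hℓ2 : ℓ ≠ 2) {A : ValuationSubring s58_Qb}
    (hA : A.LiesOverPrime ℓ) : A.valuation (2 : s58_Qb) = 1 := by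
  have h : ¬ (ℓ : ℤ) ∣ 2 := by
    intro hd
    have h1 : ℓ ∣ 2 := by exact_mod_cast hd
    exact hℓ2 ((Nat.prime_dvd_prime_iff_eq hℓ Nat.prime_two).mp h1)
  have := intVal_eq_one_of_not_dvd A hA hℓ h
  simpa using this

/-- **[SS-A] in the S15 vocabulary**: an integral model with cuspidal (additive) reduction at an
odd prime `ℓ`: all points of `2`-power order have integral `x`-coordinates congruent to the cusp. -/
theorem mzj_ss_a_int (W : WeierstrassCurve ℤ) {ℓ : ℕ} (hℓ : ℓ.Prime) (hℓ2 : ℓ ≠ 2)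
    (hc₄ : (ℓ : ℤ) ∣ W.c₄) (hΔ : (ℓ : ℤ) ∣ W.Δ) (A : ValuationSubring s58_Qb)
    (hA : A.LiesOverPrime ℓ) :
    ∃ r ∈ A, ∀ (k : ℕ) (x y : s58_Qb) (h : ((s58_WQ W)⁄s58_Qb).toAffine.Nonsingular x y),
      2 ^ k • (Point.some x y h : s58_E W) = 0 → x ∈ A ∧ A.valuation (x - r) < 1 := by
  obtain ⟨h₂, h₄, h₆, h₈⟩ := mzj_e1_b_mem_s58 W A
  have htwo := mzj_ss_a_two_unit hℓ hℓ2 hA
  have hc : A.valuation ((s58_WQ W)⁄s58_Qb).c₄ < 1 := by
    rw [mzj_ss_a_c₄_s58]; exact intVal_lt_one_of_dvd A hA hc₄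
  have hd : A.valuation ((s58_WQ W)⁄s58_Qb).Δ < 1 := by
    rw [mzj_ss_a_Δ_s58]; exact intVal_lt_one_of_dvd A hA hΔ
  obtain ⟨r, hr, hβ₂, hβ₄, hβ₆, hβ₈⟩ := mzj_ss_a_exists_cusp h₂ h₄ h₆ h₈ htwo hc hd
  exact ⟨r, hr, fun k x y h hk => mzj_ss_a_main h₂ h₄ h₆ h₈ htwo hr hβ₂ hβ₄ hβ₆ hβ₈ k h hk⟩

end Fermat.Agent.MZ
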