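/-
MAZUR project, node [MZ-J], cell [J-SS] (owner helper25), sub-cell **(SS-A) [CUSP]** (helper28).
The seam `mzj_ss_Cusp_stmt` of `MZ/J/SSSeams.lean`, from `MZ/J/SS/Cusp.lean`.  Prefix `mzj_ss_a_`.
-/
import Mathlib
import Fermat.Agent.MZ.J.SS.Cusp
import Fermat.Agent.MZ.J.SSSeams

set_option autoImplicit false

namespace Fermat.Agent.MZ

open WeierstrassCurve WeierstrassCurve.Affine Fermat.Agent.S58

/-- **(SS-A) [CUSP]** -/
theorem mzj_ss_a_stmt : mzj_ss_Cusp_stmt := by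
  intro W _ ℓ hℓ hℓ2 hΔ hc₄ A hA
  obtain ⟨r, hr, h⟩ := mzj_ss_a_int W hℓ hℓ2 hc₄ hΔ A hA
  exact ⟨r, hr, fun k x y hxy hk => (h k x y hxy hk).2⟩

end Fermat.Agent.MZ
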