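/-
MAZUR project, node [MZ-J], cell [J-SS] (owner helper25), sub-cell **(SS-C) [MANY]** (helper28).
Prefix `mzj_ss_c_`.

`mzj_ss_c_main : mzj_ss_Many_stmt` (`MZ/J/SSSeams.lean`): at an odd prime `ℓ` where the integral
model `W` is semistable, for every `M` there are `M` points of `2`-power order whose `x`-coordinates
are `A`-integral and pairwise incongruent modulo the maximal ideal (`A ∣ ℓ`).

Proof.  There is `P ∈ E⁰(A)` of exact order `2^(n+1)` (multiplicative: lift from the nodal group,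
`s58m_exists_prime_pow_order` + `s58m_exists_torsion_lift`; good: a `2`-torsion point divided by
`2^n`, `W(ℚ̄)` being divisible).  For `1 ≤ m < m' ≤ 2^n` the points `mP, m'P` are nonzero torsion
points of `E⁰`, not in `E₁`; if `x(mP) ≡ x(m'P)` then `red(mP) = ± red(m'P)`, so `(m' ∓ m)P` is in
the kernel of reduction, hence `0` (`s58r_red_injective_on_torsion`), impossible as
`0 < m' ∓ m < 2^(n+1)`.
-/
import Mathlib
import Fermat.Agent.MZ.J.SSSeams
import Fermat.Agent.MZ.J.AtPAsm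
import Fermat.Agent.S58.Mult.ZeroComp
import Fermat.Agent.MZ.J.SS.Cusp

set_option autoImplicit false

namespace Fermat.Agent.MZ

open WeierstrassCurve WeierstrassCurve.Affine IsLocalRing Fermat.Agent.S58 Fermat.Agent.S05
  Fermat.Agent.S13

/-! ### The reduction map: coordinates and separation -/

section generic

variable {F : Type*} [Field F] [DecidableEq F] {A : ValuationSubring F}
  [DecidableEq (ResidueField A)] {W : Affine F} {Wk : Affine (ResidueField A)}

/-- a point of `E⁰` with nonzero reduction is an integral affine point, and its reduction is the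
reduction of its coordinates -/
theorem mzj_ss_c_red_aff (hM : s58r_Model A W Wk) (Q : s58r_E0 hM) (hQ : s58r_red hM Q ≠ 0) :
    ∃ (a b : A) (h : W.Nonsingular (a : F) (b : F))
      (h' : Wk.Nonsingular (residue A a) (residue A b)),
      (Q : W.Point) = Point.some _ _ h ∧ s58r_red hM Q = Point.some _ _ h' := by
  have hs := s58r_red_spec hM Q
  generalize hR : s58r_red hM Q = R at hs hQ ⊢
  generalize hP : (Q : W.Point) = P at hs ⊢
  cases hs with
  | zero => exact absurd rfl hQ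
  | inf h₁ hx₁ => exact absurd rfl hQ
  | aff a b h₁ h₁' => exact ⟨a, b, h₁, h₁', rfl, rfl⟩

/-- **separation**: `P ∈ E⁰` of exact order `N` (a unit of `A`); for `0 < m < m'`, `m + m' < N`
the `x`-coordinates of `mP` and `m'P` are integral and incongruent. -/
theorem mzj_ss_c_distinct (hM : s58r_Model A W Wk) {N : ℕ} (hN : A.valuation (N : F) = 1)
    (P : s58r_E0 hM) (hP : N • (P : W.Point) = 0)
    (hord : ∀ d : ℕ, 0 < d → d < N → d • (P : W.Point) ≠ 0) {m m' : ℕ} (hm : 0 < m)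
    (hmm' : m < m') (hm'N : m + m' < N) :
    ∃ (a a' : A) (b b' : F) (h : W.Nonsingular (a : F) b) (h' : W.Nonsingular (a' : F) b'),
      m • (P : W.Point) = Point.some _ _ h ∧ m' • (P : W.Point) = Point.some _ _ h' ∧
      A.valuation ((a : F) - (a' : F)) = 1 := by
  -- torsion points of `E⁰` with nonzero multiples have nonzero reduction
  have hne : ∀ d : ℕ, 0 < d → d < N → s58r_red hM (d • P) ≠ 0 := by
    intro d hd hdN h0
    have h1 : N • ((d • P : s58r_E0 hM) : W.Point) = 0 := by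
      rw [AddSubgroup.coe_nsmul, smul_comm, hP, smul_zero]
    have h2 := s58r_red_injective_on_torsion hM hN h1 h0
    apply hord d hd hdN
    have := congrArg Subtype.val h2
    simpa using this
  obtain ⟨d, hd, rfl⟩ : ∃ d, 0 < d ∧ m' = m + d := ⟨m' - m, by omega, by omega⟩
  obtain ⟨a, b, h, hk, hQ, hrQ⟩ := mzj_ss_c_red_aff hM (m • P) (hne m hm (by omega))
  obtain ⟨a', b', h', hk', hQ', hrQ'⟩ := mzj_ss_c_red_aff hM ((m + d) • P) (hne (m + d) (by omega)
    (by omega))
  refine ⟨a, a', b, b', h, h', by rw [← hQ, AddSubgroup.coe_nsmul],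
    by rw [← hQ', AddSubgroup.coe_nsmul], ?_⟩
  -- suppose the residues agree
  by_contra hval
  have hlt : A.valuation ((a : F) - (a' : F)) < 1 := by
    refine lt_of_le_of_ne ?_ hval
    exact (A.valuation_le_one_iff _).mpr (sub_mem a.2 a'.2)
  have hres : residue A a = residue A a' := by
    rw [← sub_eq_zero, ← map_sub, residue_eq_zero_iff]
    exact (A.valuation_lt_one_iff _).mpr hlt
  have hk'' : Wk.Nonsingular (residue A a) (residue A b') := hres ▸ hk'
  have hrQ'' : s58r_red hM ((m + d) • P) = Point.some _ _ hk'' := by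
    rw [hrQ']
    congr 1
    exact hres.symm
  rcases Y_eq_of_X_eq hk.1 hk''.1 rfl with hy | hy
  · -- `red(mP) = red(m'P)`: `red(dP) = 0`
    have heq : s58r_red hM (m • P) = s58r_red hM ((m + d) • P) := by
      rw [hrQ, hrQ'']
      congr 1
    rw [add_nsmul, map_add] at heq
    have : s58r_red hM (d • P) = 0 := by
      have h3 := heq
      rwa [left_eq_add] at h3
    exact hne d hd (by omega) this
  · -- `red(mP) = - red(m'P)`: `red((m + m')P) = 0`
    have heq : s58r_red hM (m • P) = -s58r_red hM ((m + d) • P) := by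
      rw [hrQ, hrQ'', Point.neg_some]
      congr 1
    have : s58r_red hM ((m + (m + d)) • P) = 0 := by
      rw [add_nsmul P m (m + d), map_add, heq, neg_add_cancel]
    exact hne (m + (m + d)) (by omega) hm'N this

end generic

/-! ### The integral model -/

section curve

variable (W : WeierstrassCurve ℤ)

/-- a nonzero `2`-torsion point of `W(ℚ̄)` -/
theorem mzj_ss_c_exists_two (hΔ : W.Δ ≠ 0) : ∃ T : s58_E W, T ≠ 0 ∧ 2 • T = 0 := by
  have h4 : (4 : s58_Qb) ≠ 0 := by norm_num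
  obtain ⟨e, he⟩ := IsAlgClosed.exists_root
    (Polynomial.C (4 : s58_Qb) * Polynomial.X ^ 3
      + Polynomial.C ((s58_WQ W)⁄s58_Qb).b₂ * Polynomial.X ^ 2
      + Polynomial.C (2 * ((s58_WQ W)⁄s58_Qb).b₄) * Polynomial.X
      + Polynomial.C ((s58_WQ W)⁄s58_Qb).b₆)
    (by rw [Polynomial.degree_cubic h4]; norm_num)
  have he' : psi2Sq ((s58_WQ W)⁄s58_Qb).toAffine e = 0 := by
    simp only [Polynomial.IsRoot.def, Polynomial.eval_add, Polynomial.eval_mul,
      Polynomial.eval_C, Polynomial.eval_pow, Polynomial.eval_X] at he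
    simp only [psi2Sq]
    linear_combination he
  obtain ⟨y, hy⟩ := ld_exists_point (mzj_e1_Δ_ne_s58 W hΔ) e
  refine ⟨Point.some e y hy, Point.some_ne_zero hy, ?_⟩
  rcases two_nsmul_some hy with ⟨-, h2⟩ | ⟨hne, -⟩
  · exact h2
  · exact absurd he' hne

variable {W}

/-- exact order from `2^(n+1) • P = 0`, `2^n • P ≠ 0` -/
theorem mzj_ss_c_order {G : Type*} [AddCommGroup G] {P : G} {n : ℕ} (h1 : 2 ^ (n + 1) • P = 0)
    (h2 : 2 ^ n • P ≠ 0) : ∀ d : ℕ, 0 < d → d < 2 ^ (n + 1) → d • P ≠ 0 := by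
  intro d hd hlt h0
  have := Fact.mk Nat.prime_two
  have hord : addOrderOf P = 2 ^ (n + 1) := addOrderOf_eq_prime_pow h2 h1
  have hdvd := addOrderOf_dvd_of_nsmul_eq_zero h0
  rw [hord] at hdvd
  exact absurd (Nat.le_of_dvd hd hdvd) (not_le.mpr hlt)

/-- **a point of exact order `2^(n+1)` in `E⁰(A)`**, at an odd semistable prime -/
theorem mzj_ss_c_exists_order (hΔ0 : W.Δ ≠ 0) {ℓ : ℕ} (hℓ : ℓ.Prime) (hℓ2 : ℓ ≠ 2)
    (hss : mzj_SS W ℓ) {A : ValuationSubring s58_Qb} (hA : A.LiesOverPrime ℓ)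
    [DecidableEq (ResidueField A)] (n : ℕ) :
    ∃ P : s58r_E0 (s58m_model W A), 2 ^ (n + 1) • (P : s58_E W) = 0 ∧
      2 ^ n • (P : s58_E W) ≠ 0 := by
  have : IsAlgClosed (ResidueField A) := s58m_residue_isAlgClosed A
  have hM := s58m_model W A
  have hΔ : ((s58_WQ W)⁄s58_Qb).Δ ≠ 0 := mzj_e1_Δ_ne_s58 W hΔ0
  have hunit : A.valuation (((2 ^ (n + 1) : ℕ)) : s58_Qb) = 1 := by
    rw [Nat.cast_pow, map_pow, Nat.cast_ofNat, mzj_ss_a_two_unit hℓ hℓ2 hA, one_pow]
  by_cases hbad : (ℓ : ℤ) ∣ W.Δ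
  · have hc4 : ¬ (ℓ : ℤ) ∣ W.c₄ := by
      rcases hss with h | h
      · exact absurd hbad h
      · exact h
    have hΔk : (s58m_Wk W A).Δ = 0 := by
      rw [s58m_Wk_Δ]
      exact (s58m_residue_intCast_eq_zero_iff hA hℓ _).mpr hbad
    have hc4k : (s58m_Wk W A).c₄ ≠ 0 := by
      rw [s58m_Wk_c₄]
      exact fun h => hc4 ((s58m_residue_intCast_eq_zero_iff hA hℓ _).mp h)
    have hlk : ((2 : ℕ) : ResidueField A) ≠ 0 := by
      intro h
      have h1 : residue A (((2 : ℕ) : ℤ) : A) = 0 := by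
        rw [Int.cast_natCast, map_natCast]; exact h
      have h2 : (ℓ : ℤ) ∣ ((2 : ℕ) : ℤ) := (s58m_residue_intCast_eq_zero_iff hA hℓ _).mp h1
      have h3 : ℓ ∣ 2 := by exact_mod_cast h2
      exact hℓ2 ((Nat.prime_dvd_prime_iff_eq hℓ Nat.prime_two).mp h3)
    obtain ⟨Q, hQ1, hQ2⟩ :=
      s58m_exists_prime_pow_order (s58m_Wk W A) hΔk hc4k 2 Nat.prime_two hlk n
    obtain ⟨P, hP1, hP2⟩ := s58m_exists_torsion_lift hM hΔ hunit hQ1
    refine ⟨P, hP1, fun h0 => hQ2 ?_⟩
    have h1 : 2 ^ n • P = 0 := Subtype.ext (by rw [AddSubgroup.coe_nsmul]; exact h0)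
    rw [← hP2, ← map_nsmul, h1, _root_.map_zero]
  · have hΔk : (s58m_Wk W A).Δ ≠ 0 := by
      rw [s58m_Wk_Δ]
      exact fun h => hbad ((s58m_residue_intCast_eq_zero_iff hA hℓ _).mp h)
    obtain ⟨T, hT0, hT2⟩ := mzj_ss_c_exists_two W hΔ0
    obtain ⟨w, hw⟩ := mzj_aa_exists_nsmul W hΔ0 (Nat.one_le_two_pow (n := n)) T
    refine ⟨⟨w, s58r_mem_E0_of_good hM hΔk w⟩, ?_, ?_⟩
    · show 2 ^ (n + 1) • w = 0
      rw [pow_succ, mul_comm, mul_nsmul', hw]
      exact hT2
    · show 2 ^ n • w ≠ 0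
      rw [hw]
      exact hT0

/-- **(SS-C) [MANY]** -/
theorem mzj_ss_c_main : mzj_ss_Many_stmt := by
  intro W hΔ0 ℓ hℓ hℓ2 hss A hA M
  classical
  have hM := s58m_model W A
  obtain ⟨P, hP1, hP2⟩ := mzj_ss_c_exists_order hΔ0 hℓ hℓ2 hss hA M
  have hunit : A.valuation (((2 ^ (M + 1) : ℕ)) : s58_Qb) = 1 := by
    rw [Nat.cast_pow, map_pow, Nat.cast_ofNat, mzj_ss_a_two_unit hℓ hℓ2 hA, one_pow]
  have hord := mzj_ss_c_order hP1 hP2
  -- separation for `m ≠ m'` in `[1, 2^M]`
  have hsep : ∀ m ∈ Finset.Icc 1 (2 ^ M), ∀ m' ∈ Finset.Icc 1 (2 ^ M), m < m' →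
      xOf (m • (P : s58_E W)) ∈ A ∧ xOf (m' • (P : s58_E W)) ∈ A ∧
      A.valuation (xOf (m • (P : s58_E W)) - xOf (m' • (P : s58_E W))) = 1 := by
    intro m hm m' hm' hlt
    rw [Finset.mem_Icc] at hm hm'
    have hsum : m + m' < 2 ^ (M + 1) := by
      rw [pow_succ]; omega
    obtain ⟨a, a', b, b', h, h', e1, e2, hv⟩ :=
      mzj_ss_c_distinct hM hunit P hP1 hord (by omega : 0 < m) hlt hsum
    rw [e1, e2]
    exact ⟨a.2, a'.2, hv⟩
  have hinj : Set.InjOn (fun m : ℕ => xOf (m • (P : s58_E W))) (Finset.Icc 1 (2 ^ M) : Set ℕ) := by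
    intro m hm m' hm' heq
    by_contra hne
    rcases lt_or_gt_of_ne hne with hlt | hlt
    · have := (hsep m hm m' hm' hlt).2.2
      simp only [] at heq
      rw [heq, sub_self, map_zero] at this
      exact zero_ne_one this
    · have := (hsep m' hm' m hm hlt).2.2
      simp only [] at heq
      rw [heq, sub_self, map_zero] at this
      exact zero_ne_one this
  refine ⟨(Finset.Icc 1 (2 ^ M)).image (fun m : ℕ => xOf (m • (P : s58_E W))), ?_, ?_, ?_, ?_⟩
  · rw [Finset.card_image_of_injOn hinj, Nat.card_Icc, Nat.add_sub_cancel]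
    exact Nat.lt_two_pow_self.le
  · intro x hx
    obtain ⟨m, hm, rfl⟩ := Finset.mem_image.mp hx
    -- integrality from separation against another index
    rw [Finset.mem_Icc] at hm
    have hmN : m < 2 ^ (M + 1) := by rw [pow_succ]; omega
    have hne : s58r_red hM (m • P) ≠ 0 := by
      intro h0
      have h1 : 2 ^ (M + 1) • ((m • P : s58r_E0 hM) : s58_E W) = 0 := by
        rw [AddSubgroup.coe_nsmul, smul_comm, hP1, smul_zero]
      have h2 := s58r_red_injective_on_torsion hM hunit h1 h0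
      apply hord m (by omega) hmN
      have := congrArg Subtype.val h2
      simpa using this
    obtain ⟨a, b, h, -, hQ, -⟩ := mzj_ss_c_red_aff hM (m • P) hne
    rw [AddSubgroup.coe_nsmul] at hQ
    show xOf (m • (P : s58_E W)) ∈ A
    rw [hQ]
    exact a.2
  · intro x hx
    obtain ⟨m, hm, rfl⟩ := Finset.mem_image.mp hx
    rw [Finset.mem_Icc] at hm
    have hmN : m < 2 ^ (M + 1) := by rw [pow_succ]; omega
    have hne0 : m • (P : s58_E W) ≠ 0 := hord m (by omega) hmN
    rcases hmP : m • (P : s58_E W) with _ | ⟨x, y, h⟩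
    · exact absurd hmP hne0
    · refine ⟨M + 1, y, h, ?_⟩
      show 2 ^ (M + 1) • (Point.some x y h : s58_E W) = 0
      rw [← hmP, smul_comm, hP1, nsmul_zero]
  · intro x hx x' hx' hne
    obtain ⟨m, hm, rfl⟩ := Finset.mem_image.mp hx
    obtain ⟨m', hm', rfl⟩ := Finset.mem_image.mp hx'
    have hmm : m ≠ m' := fun h => hne (by rw [h])
    rcases lt_or_gt_of_ne hmm with hlt | hlt
    · exact (hsep m hm m' hm' hlt).2.2
    · rw [Valuation.map_sub_swap]
      exact (hsep m' hm' m hm hlt).2.2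

end curve

end Fermat.Agent.MZ
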