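/-
MAZUR project, node [MZ-J] (S12 from S15), cell [J-SS] (owner helper28), sub-cell **[SS-INT]**
(helper5).  Prefix `mzj_ss_i_`.

THE RESCALING OF A `ℚ`-MODEL WITH `p`-POWER DENOMINATORS TO A `ℤ`-MODEL, AND THE INTEGRALITY SUPPLIER.

* `mzj_ss_i_den_eq_pow`, `mzj_ss_i_exists_int` : a rational number which is `ℓ`-integral for every
  prime `ℓ ≠ p` becomes an integer after multiplication by a large power of `p`;
* `mzj_ss_i_padic_nonneg` : a rational number lying in a valuation subring `A ∣ ℓ` of `ℚ̄` is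
  `ℓ`-integral; `mzj_ss_i_padic_nonneg_of_exists`;
* `mzj_ss_i_rescale` : `E' / ℚ` (`Δ ≠ 0`) whose five coefficients are `ℓ`-integral for every prime
  `ℓ ≠ p` ⟹ there are `j`, `W' : WeierstrassCurve ℤ` with `a_i(W') = p^(i j) a_i(E')`, and a
  Galois-equivariant isomorphism of groups `e : E'(ℚ̄) ≃+ W'(ℚ̄)`,
  `e (x, y) = (p^(2j) x, p^(3j) y)`; `Δ(W') = p^(12 j) Δ(E') ≠ 0`, `c₄(W') = p^(4 j) c₄(E')`;
  `mzj_ss_i_rescale'` : the same with the hypotheses in the form "`a_i ∈ A` for some `A ∣ ℓ`";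
* `mzj_ss_i_coord_mem` : on an integral model `W`, the coordinates of a point killed by `n` lie in
  every valuation subring `A` in which `n` is a unit (`p`-torsion, `A ∣ ℓ ≠ p`:
  `mzj_ss_i_coord_mem_prime`).
-/
import Mathlib
import Fermat.Agent.MZ.J.Seams
import Fermat.Agent.MZ.J.E1DivP
import Fermat.Agent.LR.NonEis.VarChange
import Fermat.Agent.S05.RatVal
import Fermat.Agent.S13.Local.NoTorsionTwo
import Fermat.Agent.S58.Red.Val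

set_option autoImplicit false
set_option linter.unusedSectionVars false

noncomputable section

namespace Fermat.Agent.MZ

open WeierstrassCurve WeierstrassCurve.Affine Fermat.Agent.S58 Fermat.Agent.S05 Fermat.Agent.LR

/-! ### rational numbers with `p`-power denominators -/

/-- a rational number which is `ℓ`-integral for every prime `ℓ ≠ p` has a power of `p` as
denominator. -/
theorem mzj_ss_i_den_eq_pow {p : ℕ} (q : ℚ)
    (h : ∀ l : ℕ, l.Prime → l ≠ p → 0 ≤ padicValRat l q) : ∃ k : ℕ, q.den = p ^ k := by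
  refine ⟨q.den.primeFactorsList.length,
    Nat.eq_prime_pow_of_unique_prime_dvd q.den_ne_zero ?_⟩
  intro d hd hdvd
  by_contra hne
  have h0 := h d hd hne
  have : Fact d.Prime := Fact.mk hd
  have h1 : padicValRat d q = (padicValInt d q.num : ℤ) - (padicValNat d q.den : ℤ) := rfl
  have h2 : 1 ≤ padicValNat d q.den := one_le_padicValNat_of_dvd q.den_ne_zero hdvd
  have h3 : padicValInt d q.num = 0 := by
    apply padicValInt.eq_zero_of_not_dvd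
    intro hnum
    have hd' : d ∣ q.num.natAbs := Int.natCast_dvd.mp hnum
    exact hd.one_lt.ne' (Nat.eq_one_of_dvd_coprimes q.reduced hd' hdvd)
  rw [h1, h3] at h0
  omega

/-- a rational number which is `ℓ`-integral for every prime `ℓ ≠ p` becomes an integer after
multiplication by every large power of `p`. -/
theorem mzj_ss_i_exists_int {p : ℕ} (q : ℚ)
    (h : ∀ l : ℕ, l.Prime → l ≠ p → 0 ≤ padicValRat l q) :
    ∃ k : ℕ, ∀ m : ℕ, k ≤ m → ∃ z : ℤ, (z : ℚ) = (p : ℚ) ^ m * q := by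
  obtain ⟨k, hk⟩ := mzj_ss_i_den_eq_pow q h
  refine ⟨k, fun m hm => ⟨(p : ℤ) ^ (m - k) * q.num, ?_⟩⟩
  have hden : (q.den : ℚ) ≠ 0 := by exact_mod_cast q.den_ne_zero
  have hq : q = (q.num : ℚ) / (q.den : ℚ) := (Rat.num_div_den q).symm
  have hp0 : (p : ℚ) ^ k ≠ 0 := by
    have : ((p ^ k : ℕ) : ℚ) ≠ 0 := by rw [← hk]; exact hden
    exact_mod_cast this
  have hdk : (q.den : ℚ) = (p : ℚ) ^ k := by exact_mod_cast congrArg (Nat.cast : ℕ → ℚ) hk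
  conv_rhs => rw [hq, hdk]
  obtain ⟨n, rfl⟩ := Nat.exists_eq_add_of_le hm
  push_cast
  rw [Nat.add_sub_cancel_left, pow_add]
  field_simp

/-! ### a rational number in a valuation subring over `ℓ` is `ℓ`-integral -/

/-- a rational number lying in a valuation subring `A ∣ ℓ` of a field of characteristic zero is
`ℓ`-integral. -/
theorem mzj_ss_i_padic_nonneg {L : Type*} [Field L] [CharZero L] (A : ValuationSubring L)
    {l : ℕ} (hl : l.Prime) (hA : A.LiesOverPrime l) (q : ℚ) (hq : (q : L) ∈ A) :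
    0 ≤ padicValRat l q := by
  rcases eq_or_ne q 0 with rfl | hq0
  · simp
  by_contra hneg
  push Not at hneg
  have hv := ratVal_eq_zpow A hA hl hq0
  have hle : A.valuation (q : L) ≤ 1 := (A.valuation_le_one_iff _).mpr hq
  have hlt : A.valuation (l : L) < 1 := intVal_prime_lt_one A hA
  have hl0 : A.valuation (l : L) ≠ 0 := by
    rw [Ne, map_eq_zero]
    exact_mod_cast hl.ne_zero
  obtain ⟨n, hn⟩ := Int.exists_eq_neg_ofNat hneg.le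
  have hn0 : n ≠ 0 := by
    rintro rfl
    rw [hn] at hneg
    simp at hneg
  rw [hv, hn, zpow_neg, zpow_natCast] at hle
  have h1 : A.valuation (l : L) ^ n < 1 := pow_lt_one₀ zero_le hlt hn0
  have h2 : A.valuation (l : L) ^ n ≠ 0 := pow_ne_zero _ hl0
  have h3 : 1 < (A.valuation (l : L) ^ n)⁻¹ := (one_lt_inv₀ (zero_lt_iff.mpr h2)).mpr h1
  exact absurd hle (not_le.mpr h3)

/-- the same in `ℚ̄`, with `algebraMap`. -/
theorem mzj_ss_i_padic_nonneg_of_exists {l : ℕ} (hl : l.Prime) (q : ℚ)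
    (h : ∃ A : ValuationSubring s58_Qb, A.LiesOverPrime l ∧ algebraMap ℚ s58_Qb q ∈ A) :
    0 ≤ padicValRat l q := by
  obtain ⟨A, hA, hq⟩ := h
  refine mzj_ss_i_padic_nonneg A hl hA q ?_
  rwa [eq_ratCast] at hq

/-! ### the rescaling -/

/-- the `(u = p^(-j), 0, 0, 0)` change of variables over `ℚ`. -/
def mzj_ss_i_C (p : ℕ) (hp : p ≠ 0) (j : ℕ) : VariableChange ℚ :=
  ⟨(Units.mk0 ((p : ℚ) ^ j) (pow_ne_zero _ (Nat.cast_ne_zero.mpr hp)))⁻¹, 0, 0, 0⟩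

theorem mzj_ss_i_C_u_inv (p : ℕ) (hp : p ≠ 0) (j : ℕ) :
    (((mzj_ss_i_C p hp j).u⁻¹ : ℚˣ) : ℚ) = (p : ℚ) ^ j := by
  simp [mzj_ss_i_C]

/-- **[SS-INT] the rescaling.**  `E' / ℚ`, `Δ ≠ 0`, all of whose coefficients are `ℓ`-integral for
every prime `ℓ ≠ p`, has an integral model `W'` obtained by the substitution
`(x, y) ↦ (p^(2j) x, p^(3j) y)`. -/
theorem mzj_ss_i_rescale {p : ℕ} (hp : p ≠ 0) (E' : WeierstrassCurve ℚ) (hΔ : E'.Δ ≠ 0)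
    (h₁ : ∀ l : ℕ, l.Prime → l ≠ p → 0 ≤ padicValRat l E'.a₁)
    (h₂ : ∀ l : ℕ, l.Prime → l ≠ p → 0 ≤ padicValRat l E'.a₂)
    (h₃ : ∀ l : ℕ, l.Prime → l ≠ p → 0 ≤ padicValRat l E'.a₃)
    (h₄ : ∀ l : ℕ, l.Prime → l ≠ p → 0 ≤ padicValRat l E'.a₄)
    (h₆ : ∀ l : ℕ, l.Prime → l ≠ p → 0 ≤ padicValRat l E'.a₆) :
    ∃ (j : ℕ) (W' : WeierstrassCurve ℤ) (e : (E'⁄s58_Qb).Point ≃+ s58_E W'),
      W'.Δ ≠ 0 ∧
      ((W'.a₁ : ℤ) : ℚ) = (p : ℚ) ^ j * E'.a₁ ∧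
      ((W'.a₂ : ℤ) : ℚ) = (p : ℚ) ^ (2 * j) * E'.a₂ ∧
      ((W'.a₃ : ℤ) : ℚ) = (p : ℚ) ^ (3 * j) * E'.a₃ ∧
      ((W'.a₄ : ℤ) : ℚ) = (p : ℚ) ^ (4 * j) * E'.a₄ ∧
      ((W'.a₆ : ℤ) : ℚ) = (p : ℚ) ^ (6 * j) * E'.a₆ ∧
      ((W'.Δ : ℤ) : ℚ) = (p : ℚ) ^ (12 * j) * E'.Δ ∧
      ((W'.c₄ : ℤ) : ℚ) = (p : ℚ) ^ (4 * j) * E'.c₄ ∧
      (∀ (σ : s58_G) (x : (E'⁄s58_Qb).Point), e (σ • x) = σ • e x) ∧
      (∀ (x y : s58_Qb) (h : (E'⁄s58_Qb).Nonsingular x y),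
        ∃ h' : ((s58_WQ W')⁄s58_Qb).Nonsingular ((p : s58_Qb) ^ (2 * j) * x)
            ((p : s58_Qb) ^ (3 * j) * y),
          e (Point.some x y h) = Point.some _ _ h') := by
  classical
  obtain ⟨k₁, hk₁⟩ := mzj_ss_i_exists_int E'.a₁ h₁
  obtain ⟨k₂, hk₂⟩ := mzj_ss_i_exists_int E'.a₂ h₂
  obtain ⟨k₃, hk₃⟩ := mzj_ss_i_exists_int E'.a₃ h₃
  obtain ⟨k₄, hk₄⟩ := mzj_ss_i_exists_int E'.a₄ h₄
  obtain ⟨k₆, hk₆⟩ := mzj_ss_i_exists_int E'.a₆ h₆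
  set j := k₁ + k₂ + k₃ + k₄ + k₆ with hj
  obtain ⟨z₁, hz₁⟩ := hk₁ j (by omega)
  obtain ⟨z₂, hz₂⟩ := hk₂ (2 * j) (by omega)
  obtain ⟨z₃, hz₃⟩ := hk₃ (3 * j) (by omega)
  obtain ⟨z₄, hz₄⟩ := hk₄ (4 * j) (by omega)
  obtain ⟨z₆, hz₆⟩ := hk₆ (6 * j) (by omega)
  set W' : WeierstrassCurve ℤ := ⟨z₁, z₂, z₃, z₄, z₆⟩ with hW'
  have hu := mzj_ss_i_C_u_inv p hp j
  -- the curve over `ℚ` of `W'` is the rescaled curve
  have hC : mzj_ss_i_C p hp j • E' = s58_WQ W' := by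
    ext
    · rw [variableChange_a₁, hu]
      show _ = ((z₁ : ℤ) : ℚ)
      rw [hz₁]; simp [mzj_ss_i_C]
    · rw [variableChange_a₂, hu]
      show _ = ((z₂ : ℤ) : ℚ)
      rw [hz₂]; simp [mzj_ss_i_C, pow_mul']
    · rw [variableChange_a₃, hu]
      show _ = ((z₃ : ℤ) : ℚ)
      rw [hz₃]; simp [mzj_ss_i_C, pow_mul']
    · rw [variableChange_a₄, hu]
      show _ = ((z₄ : ℤ) : ℚ)
      rw [hz₄]; simp [mzj_ss_i_C, pow_mul']
    · rw [variableChange_a₆, hu]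
      show _ = ((z₆ : ℤ) : ℚ)
      rw [hz₆]; simp [mzj_ss_i_C, pow_mul']
  have hΔ' : ((W'.Δ : ℤ) : ℚ) = (p : ℚ) ^ (12 * j) * E'.Δ := by
    have h := congrArg WeierstrassCurve.Δ hC
    rw [variableChange_Δ, hu] at h
    have h2 : (s58_WQ W').Δ = ((W'.Δ : ℤ) : ℚ) := by
      show (W'.map (Int.castRingHom ℚ)).Δ = _
      rw [WeierstrassCurve.map_Δ]; rfl
    rw [← h2, ← h, pow_mul']
  have hc₄' : ((W'.c₄ : ℤ) : ℚ) = (p : ℚ) ^ (4 * j) * E'.c₄ := by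
    have h := congrArg WeierstrassCurve.c₄ hC
    rw [variableChange_c₄, hu] at h
    have h2 : (s58_WQ W').c₄ = ((W'.c₄ : ℤ) : ℚ) := by
      show (W'.map (Int.castRingHom ℚ)).c₄ = _
      rw [WeierstrassCurve.map_c₄]; rfl
    rw [← h2, ← h, pow_mul']
  have hp0 : (p : ℚ) ≠ 0 := Nat.cast_ne_zero.mpr hp
  have hΔ0 : W'.Δ ≠ 0 := by
    intro h0
    rw [h0, Int.cast_zero] at hΔ'
    exact (mul_ne_zero (pow_ne_zero _ hp0) hΔ) hΔ'.symm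
  -- the isomorphism on points
  let e : (E'⁄s58_Qb).Point ≃+ s58_E W' :=
    AddEquiv.ofBijective (lrvc_homQ E' (s58_WQ W') (mzj_ss_i_C p hp j) hC hΔ)
      (lrvc_mapQ_bijective E' (s58_WQ W') (mzj_ss_i_C p hp j) hC hΔ)
  refine ⟨j, W', e, hΔ0, hz₁, hz₂, hz₃, hz₄, hz₆, hΔ', hc₄', ?_, ?_⟩
  · intro σ x
    exact lrvc_mapQ_smul E' (s58_WQ W') (mzj_ss_i_C p hp j) hC hΔ σ x
  · intro x y h
    have hX : lrvc_X ((mzj_ss_i_C p hp j).map (algebraMap ℚ s58_Qb)) x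
        = (p : s58_Qb) ^ (2 * j) * x := by
      simp [lrvc_X, mzj_ss_i_C, VariableChange.map, pow_mul']
    have hY : lrvc_Y ((mzj_ss_i_C p hp j).map (algebraMap ℚ s58_Qb)) x y
        = (p : s58_Qb) ^ (3 * j) * y := by
      simp [lrvc_Y, mzj_ss_i_C, VariableChange.map, pow_mul']
    have he : ∃ hns : ((s58_WQ W')⁄s58_Qb).Nonsingular
        (lrvc_X ((mzj_ss_i_C p hp j).map (algebraMap ℚ s58_Qb)) x)
        (lrvc_Y ((mzj_ss_i_C p hp j).map (algebraMap ℚ s58_Qb)) x y),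
        e (Point.some x y h) = Point.some _ _ hns := ⟨_, rfl⟩
    obtain ⟨hns, he⟩ := he
    rw [he]
    have hns' : ((s58_WQ W')⁄s58_Qb).Nonsingular ((p : s58_Qb) ^ (2 * j) * x)
        ((p : s58_Qb) ^ (3 * j) * y) := by
      rw [← hX, ← hY]; exact hns
    exact ⟨hns', lrvc_some_congr hns' hns hX hY⟩

/-- **[SS-INT] the rescaling**, hypotheses in the form "each coefficient lies in some valuation
subring of `ℚ̄` over `ℓ`, for every prime `ℓ ≠ p`". -/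
theorem mzj_ss_i_rescale' {p : ℕ} (hp : p ≠ 0) (E' : WeierstrassCurve ℚ) (hΔ : E'.Δ ≠ 0)
    (h : ∀ l : ℕ, l.Prime → l ≠ p → ∃ A : ValuationSubring s58_Qb, A.LiesOverPrime l ∧
      algebraMap ℚ s58_Qb E'.a₁ ∈ A ∧ algebraMap ℚ s58_Qb E'.a₂ ∈ A ∧
      algebraMap ℚ s58_Qb E'.a₃ ∈ A ∧ algebraMap ℚ s58_Qb E'.a₄ ∈ A ∧
      algebraMap ℚ s58_Qb E'.a₆ ∈ A) :
    ∃ (j : ℕ) (W' : WeierstrassCurve ℤ) (e : (E'⁄s58_Qb).Point ≃+ s58_E W'),
      W'.Δ ≠ 0 ∧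
      ((W'.a₁ : ℤ) : ℚ) = (p : ℚ) ^ j * E'.a₁ ∧
      ((W'.a₂ : ℤ) : ℚ) = (p : ℚ) ^ (2 * j) * E'.a₂ ∧
      ((W'.a₃ : ℤ) : ℚ) = (p : ℚ) ^ (3 * j) * E'.a₃ ∧
      ((W'.a₄ : ℤ) : ℚ) = (p : ℚ) ^ (4 * j) * E'.a₄ ∧
      ((W'.a₆ : ℤ) : ℚ) = (p : ℚ) ^ (6 * j) * E'.a₆ ∧
      ((W'.Δ : ℤ) : ℚ) = (p : ℚ) ^ (12 * j) * E'.Δ ∧
      ((W'.c₄ : ℤ) : ℚ) = (p : ℚ) ^ (4 * j) * E'.c₄ ∧
      (∀ (σ : s58_G) (x : (E'⁄s58_Qb).Point), e (σ • x) = σ • e x) ∧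
      (∀ (x y : s58_Qb) (h : (E'⁄s58_Qb).Nonsingular x y),
        ∃ h' : ((s58_WQ W')⁄s58_Qb).Nonsingular ((p : s58_Qb) ^ (2 * j) * x)
            ((p : s58_Qb) ^ (3 * j) * y),
          e (Point.some x y h) = Point.some _ _ h') := by
  refine mzj_ss_i_rescale hp E' hΔ ?_ ?_ ?_ ?_ ?_
  · intro l hl hlp
    obtain ⟨A, hA, h1, -, -, -, -⟩ := h l hl hlp
    exact mzj_ss_i_padic_nonneg_of_exists hl _ ⟨A, hA, h1⟩
  · intro l hl hlp
    obtain ⟨A, hA, -, h2, -, -, -⟩ := h l hl hlp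
    exact mzj_ss_i_padic_nonneg_of_exists hl _ ⟨A, hA, h2⟩
  · intro l hl hlp
    obtain ⟨A, hA, -, -, h3, -, -⟩ := h l hl hlp
    exact mzj_ss_i_padic_nonneg_of_exists hl _ ⟨A, hA, h3⟩
  · intro l hl hlp
    obtain ⟨A, hA, -, -, -, h4, -⟩ := h l hl hlp
    exact mzj_ss_i_padic_nonneg_of_exists hl _ ⟨A, hA, h4⟩
  · intro l hl hlp
    obtain ⟨A, hA, -, -, -, -, h6⟩ := h l hl hlp
    exact mzj_ss_i_padic_nonneg_of_exists hl _ ⟨A, hA, h6⟩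

/-! ### the integrality supplier -/

/-- on an integral model, the coordinates of a point killed by `n` lie in every valuation subring
of `ℚ̄` in which `n` is a unit. -/
theorem mzj_ss_i_coord_mem (W : WeierstrassCurve ℤ) (A : ValuationSubring s58_Qb) {n : ℕ}
    (hn : A.valuation (n : s58_Qb) = 1) {x y : s58_Qb}
    (h : ((s58_WQ W)⁄s58_Qb).Nonsingular x y)
    (hT : n • (Point.some x y h : s58_E W) = 0) : x ∈ A ∧ y ∈ A := by
  classical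
  obtain ⟨h₂, h₄, h₆, h₈⟩ := mzj_e1_b_mem_s58 W A
  have hx : x ∈ A := by
    by_contra hx
    have hK : InKerRed A (Point.some x y h : s58_E W) := (inKerRed_some h).mpr hx
    have := Fermat.Agent.S13.nt2_eq_zero_of_nsmul_eq_zero h₂ h₄ h₆ h₈ hn hK hT
    exact Point.some_ne_zero h this
  refine ⟨hx, ?_⟩
  -- `y` is a root of a monic quadratic with coefficients in `A`
  have key : ∀ z : ℤ, algebraMap ℚ s58_Qb ((Int.castRingHom ℚ) z) ∈ A := by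
    intro z
    have : algebraMap ℚ s58_Qb ((Int.castRingHom ℚ) z) = ((z : ℤ) : s58_Qb) := by simp
    rw [this]
    exact intVal_intCast_mem A z
  have heq := h.1
  rw [Affine.equation_iff] at heq
  have ha₁ : ((s58_WQ W)⁄s58_Qb).a₁ ∈ A := key W.a₁
  have ha₂ : ((s58_WQ W)⁄s58_Qb).a₂ ∈ A := key W.a₂
  have ha₃ : ((s58_WQ W)⁄s58_Qb).a₃ ∈ A := key W.a₃
  have ha₄ : ((s58_WQ W)⁄s58_Qb).a₄ ∈ A := key W.a₄
  have ha₆ : ((s58_WQ W)⁄s58_Qb).a₆ ∈ A := key W.a₆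
  refine s58r_root_mem (A := A)
    (s := -(((s58_WQ W)⁄s58_Qb).a₁ * x + ((s58_WQ W)⁄s58_Qb).a₃))
    (p := -(x ^ 3 + ((s58_WQ W)⁄s58_Qb).a₂ * x ^ 2 + ((s58_WQ W)⁄s58_Qb).a₄ * x
      + ((s58_WQ W)⁄s58_Qb).a₆)) ?_ ?_ ?_
  · exact A.neg_mem _ (A.add_mem _ _ (A.mul_mem _ _ ha₁ hx) ha₃)
  · exact A.neg_mem _ (A.add_mem _ _ (A.add_mem _ _ (A.add_mem _ _ (pow_mem hx 3)
      (A.mul_mem _ _ ha₂ (pow_mem hx 2))) (A.mul_mem _ _ ha₄ hx)) ha₆)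
  · linear_combination heq

/-- `p`-torsion at a place `A ∣ ℓ ≠ p`: the coordinates are `A`-integral. -/
theorem mzj_ss_i_coord_mem_prime (W : WeierstrassCurve ℤ) {p l : ℕ} (hl : l.Prime)
    (hlp : ¬ l ∣ p) (A : ValuationSubring s58_Qb) (hA : A.LiesOverPrime l) {x y : s58_Qb}
    (h : ((s58_WQ W)⁄s58_Qb).Nonsingular x y)
    (hT : p • (Point.some x y h : s58_E W) = 0) : x ∈ A ∧ y ∈ A := by
  refine mzj_ss_i_coord_mem W A ?_ h hT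
  have h1 : ¬ (l : ℤ) ∣ (p : ℤ) := by exact_mod_cast hlp
  have := intVal_eq_one_of_not_dvd A hA hl h1
  simpa using this

end Fermat.Agent.MZ

end
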