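/-
MAZUR project, node [MZ-J], cell [J-SS] (owner helper25), sub-cell **(SS-R) [RESCALE]** (helper5).
Prefix `mzj_ss_i_` (continued from `MZ/J/SS/Int.lean`).

`theorem mzj_ss_i_rescale_main : mzj_ss_Rescale_stmt` — the seam of `MZ/J/SSSeams.lean`, verbatim:
a Weierstrass curve over `ℚ` whose coefficients have a power of `p` as denominator has an integral
model `W'` (`aᵢ ↦ p^(i j) aᵢ`) with a Galois-equivariant group isomorphism on `ℚ̄`-points multiplying
`x` by `p^(2j)`.  It is `mzj_ss_i_rescale` of `MZ/J/SS/Int.lean` plus the conversion of the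
hypotheses (`mzj_ss_i_padic_of_mul_pow`).
-/
import Mathlib
import Fermat.Agent.MZ.J.SSSeams
import Fermat.Agent.MZ.J.SS.Int

set_option autoImplicit false

noncomputable section

namespace Fermat.Agent.MZ

open WeierstrassCurve WeierstrassCurve.Affine Fermat.Agent.S58

/-- a rational number `a` with `a * p^k ∈ ℤ` is `ℓ`-integral for every prime `ℓ ≠ p`. -/
theorem mzj_ss_i_padic_of_mul_pow {p : ℕ} (hp : p.Prime) (a : ℚ) (k : ℕ)
    (h : ∃ n : ℤ, a * (p : ℚ) ^ k = n) (l : ℕ) (hl : l.Prime) (hlp : l ≠ p) :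
    0 ≤ padicValRat l a := by
  obtain ⟨n, hn⟩ := h
  have : Fact l.Prime := ⟨hl⟩
  have hp0 : (p : ℚ) ≠ 0 := Nat.cast_ne_zero.mpr hp.ne_zero
  have hpk : (p : ℚ) ^ k ≠ 0 := pow_ne_zero _ hp0
  rcases eq_or_ne a 0 with rfl | ha
  · simp
  have hn0 : (n : ℚ) ≠ 0 := by rw [← hn]; exact mul_ne_zero ha hpk
  have ha' : a = (n : ℚ) / (p : ℚ) ^ k := by rw [← hn]; field_simp
  have hlp' : padicValRat l (p : ℚ) = 0 := by
    rw [padicValRat.of_nat]
    have : ¬ l ∣ p := fun hd => hlp ((Nat.prime_dvd_prime_iff_eq hl hp).mp hd)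
    exact_mod_cast padicValNat.eq_zero_of_not_dvd this
  rw [ha', padicValRat.div hn0 hpk, padicValRat.pow, hlp', mul_zero, sub_zero,
    padicValRat.of_int]
  exact Int.natCast_nonneg _

/-- **(SS-R) [RESCALE]**, the seam of `MZ/J/SSSeams.lean`. -/
theorem mzj_ss_i_rescale_main : mzj_ss_Rescale_stmt := by
  intro E' hΔ p hp k h₁ h₂ h₃ h₄ h₆
  obtain ⟨j, W', e, hΔ', -, -, -, -, -, hD, hc, hσ, hxy⟩ :=
    mzj_ss_i_rescale hp.ne_zero E' hΔ
      (mzj_ss_i_padic_of_mul_pow hp _ k h₁) (mzj_ss_i_padic_of_mul_pow hp _ k h₂)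
      (mzj_ss_i_padic_of_mul_pow hp _ k h₃) (mzj_ss_i_padic_of_mul_pow hp _ k h₄)
      (mzj_ss_i_padic_of_mul_pow hp _ k h₆)
  refine ⟨W', j, e, hΔ', hc, hD, hσ, fun x y h => ?_⟩
  obtain ⟨h', he⟩ := hxy x y h
  exact ⟨_, h', he⟩

end Fermat.Agent.MZ

end
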